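/-
S17lib / DivAll / GenPosA  (helper5)  — Project G, block DIV, step D1 (part A)

Elementary Riemann–Roch bookkeeping from `IsCurveOfGenus` only (Riemann's theorem, no duality):

* `finrank_add_single_le`     : `ℓ(D + P) ≤ ℓ(D) + 1`;
* `finrank_add_sum_ge`        : if each `P ∈ s` raises `ℓ(D)`, then `ℓ(D + Σ_{P ∈ s} P) ≥ ℓ(D) + #s`;
* `finite_raising`            : a SPECIAL divisor (`ℓ(D) > deg D + 1 - g`) is raised by finitely many
                                points only ("a general point does not raise `ℓ` of a special divisor");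
* `finrank_eq_of_ord`         : `ℓ` only depends on the linear equivalence class.
-/
import Mathlib
import Fermat.Agent.S18lib.Cech.CurveBasics
import Fermat.Agent.S18lib.Tame.Count

set_option autoImplicit false
set_option linter.style.haveILetI false
set_option linter.unusedSectionVars false

noncomputable section

namespace Fermat.Agent.S17lib.DivAll

open AlgebraicCurve Module Fermat.Agent.S18lib

variable {K F : Type*} [Field K] [Field F] [Algebra K F] {g : ℕ}

/-- `L(D) ≤ L(D + P)` -/
theorem rr_le_add_single (D : Divisor K F) (P : Place K F) :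
    riemannRochSpace D ≤ riemannRochSpace (D + Finsupp.single P 1) := by
  classical
  apply Cech.rr_mono
  intro v
  rw [Finsupp.add_apply, Finsupp.single_apply]
  split_ifs <;> omega

/-- `L(D - P) ≤ L(D)` -/
theorem rr_sub_single_le (D : Divisor K F) (P : Place K F) :
    riemannRochSpace (D - Finsupp.single P 1) ≤ riemannRochSpace D := by
  classical
  apply Cech.rr_mono
  intro v
  rw [Finsupp.sub_apply, Finsupp.single_apply]
  split_ifs <;> omega

/-- a function of `L(D + P)` outside `L(D)` is nonzero and has the exact pole order at `P` -/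
theorem ord_lt_of_mem_of_not_mem {D : Divisor K F} {P : Place K F} {f : F}
    (hf : f ∈ riemannRochSpace (D + Finsupp.single P 1)) (hf' : f ∉ riemannRochSpace D) :
    f ≠ 0 ∧ P.ord f < -D P := by
  classical
  have hf0 : f ≠ 0 := by
    rintro rfl
    exact hf' (Submodule.zero_mem _)
  refine ⟨hf0, ?_⟩
  by_contra hle
  push Not at hle
  apply hf'
  rw [Cech.mem_rr_of_ne hf0] at hf ⊢
  intro v
  by_cases hv : v = P
  · subst hv; exact hle
  · have := hf v
    rwa [Finsupp.add_apply, Finsupp.single_apply, if_neg (Ne.symm hv), add_zero] at this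

section Curve

variable (hF : IsCurveOfGenus K F g)
include hF

/-- `ℓ(D + P) ≤ ℓ(D) + 1` -/
theorem finrank_add_single_le (D : Divisor K F) (P : Place K F) :
    finrank K (riemannRochSpace (D + Finsupp.single P 1)) ≤ finrank K (riemannRochSpace D) + 1 := by
  haveI := hF.finiteDimensional D
  haveI := hF.finiteDimensional (D + Finsupp.single P 1)
  by_cases hle : riemannRochSpace (D + Finsupp.single P 1) ≤ riemannRochSpace D
  · exact (Submodule.finrank_mono hle).trans (Nat.le_succ _)
  · obtain ⟨y, hy, hyD⟩ := SetLike.not_le_iff_exists.1 hle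
    have hsup : riemannRochSpace (D + Finsupp.single P 1) ≤ riemannRochSpace D ⊔ K ∙ y := by
      intro x hx
      obtain ⟨c, hc⟩ := Cech.exists_sub_smul_mem_rr hF D P hx hy hyD
      have : x = (x - c • y) + c • y := by ring
      rw [this]
      exact Submodule.add_mem_sup hc (Submodule.smul_mem _ c (Submodule.mem_span_singleton_self y))
    calc finrank K (riemannRochSpace (D + Finsupp.single P 1))
        ≤ finrank K ↥(riemannRochSpace D ⊔ K ∙ y) := Submodule.finrank_mono hsup
      _ ≤ finrank K (riemannRochSpace D) + finrank K ↥(K ∙ y) :=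
          Submodule.finrank_add_le_finrank_add_finrank _ _
      _ ≤ finrank K (riemannRochSpace D) + 1 := by
          have := finrank_span_singleton (K := K) (ord_lt_of_mem_of_not_mem hy hyD).1
          omega

/-- the divisor `D + Σ_{P ∈ s} P` -/
theorem degree_add_sum (D : Divisor K F) (s : Finset (Place K F)) :
    Divisor.degree (D + ∑ P ∈ s, Finsupp.single P (1 : ℤ)) = Divisor.degree D + s.card := by
  rw [map_add, map_sum]
  have : ∀ P ∈ s, Divisor.degree (Finsupp.single P (1 : ℤ) : Divisor K F) = 1 := by
    intro P _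
    rw [Divisor.degree_single, hF.deg_eq_one P]; simp
  rw [Finset.sum_congr rfl this]
  simp

/-- points which raise `ℓ(D)` raise it independently -/
theorem finrank_add_sum_ge (D : Divisor K F) (s : Finset (Place K F))
    (hs : ∀ P ∈ s, ¬ riemannRochSpace (D + Finsupp.single P 1) ≤ riemannRochSpace D) :
    finrank K (riemannRochSpace D) + s.card
      ≤ finrank K (riemannRochSpace (D + ∑ P ∈ s, Finsupp.single P (1 : ℤ))) := by
  classical
  induction s using Finset.induction_on with
  | empty =>
    have h0 : D + ∑ P ∈ (∅ : Finset (Place K F)), Finsupp.single P (1 : ℤ) = D := by simp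
    have h1 : finrank K (riemannRochSpace
        (D + ∑ P ∈ (∅ : Finset (Place K F)), Finsupp.single P (1 : ℤ))) =
        finrank K (riemannRochSpace D) :=
      congrArg (fun E : Divisor K F => finrank K (riemannRochSpace E)) h0
    rw [h1, Finset.card_empty, add_zero]
  | insert Q s hQ ih =>
    have ih' := ih fun P hP => hs P (Finset.mem_insert_of_mem hP)
    obtain ⟨y, hy, hyD⟩ := SetLike.not_le_iff_exists.1 (hs Q (Finset.mem_insert_self Q s))
    obtain ⟨hy0, hyord⟩ := ord_lt_of_mem_of_not_mem hy hyD
    set Ds : Divisor K F := D + ∑ P ∈ s, Finsupp.single P (1 : ℤ) with hDs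
    have hsum : D + ∑ P ∈ insert Q s, Finsupp.single P (1 : ℤ) = Ds + Finsupp.single Q 1 := by
      rw [Finset.sum_insert hQ, hDs]; abel
    rw [hsum]
    haveI := hF.finiteDimensional (Ds + Finsupp.single Q 1)
    -- `Ds Q = D Q`
    have hDsQ : Ds Q = D Q := by
      rw [hDs, Finsupp.add_apply, Finsupp.finsetSum_apply]
      have : ∑ P ∈ s, (Finsupp.single P (1 : ℤ) : Divisor K F) Q = 0 := by
        apply Finset.sum_eq_zero
        intro P hP
        rw [Finsupp.single_apply, if_neg]
        rintro rfl
        exact hQ hP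
      rw [this, add_zero]
    have hyDs : y ∈ riemannRochSpace (Ds + Finsupp.single Q 1) := by
      refine Cech.rr_mono (fun v => ?_) hy
      rw [Finsupp.add_apply, Finsupp.add_apply, hDs, Finsupp.add_apply, Finsupp.finsetSum_apply]
      have : 0 ≤ ∑ P ∈ s, (Finsupp.single P (1 : ℤ) : Divisor K F) v := by
        apply Finset.sum_nonneg
        intro P _
        rw [Finsupp.single_apply]
        split_ifs <;> omega
      omega
    have hynot : y ∉ riemannRochSpace Ds := by
      intro hmem
      rw [Cech.mem_rr_of_ne hy0] at hmem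
      have := hmem Q
      rw [hDsQ] at this
      omega
    have hlt : riemannRochSpace Ds < riemannRochSpace (Ds + Finsupp.single Q 1) :=
      lt_of_le_of_ne (rr_le_add_single Ds Q) fun heq => hynot (heq ▸ hyDs)
    have := Submodule.finrank_lt_finrank_of_lt hlt
    rw [Finset.card_insert_of_notMem hQ]
    omega

/-- **a general point does not raise `ℓ` of a special divisor** -/
theorem finite_raising (D : Divisor K F)
    (hsp : Divisor.degree D + 1 - (g : ℤ) < (finrank K (riemannRochSpace D) : ℤ)) :
    {P : Place K F | ¬ riemannRochSpace (D + Finsupp.single P 1) ≤ riemannRochSpace D}.Finite := by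
  by_contra hinf
  have hinf' : Set.Infinite
      {P : Place K F | ¬ riemannRochSpace (D + Finsupp.single P 1) ≤ riemannRochSpace D} := hinf
  obtain ⟨n, hn⟩ : ∃ n : ℕ, 2 * (g : ℤ) - 2 < Divisor.degree D + n := by
    refine ⟨(2 * (g : ℤ) - 1 - Divisor.degree D).toNat, ?_⟩
    have := Int.self_le_toNat (2 * (g : ℤ) - 1 - Divisor.degree D)
    omega
  obtain ⟨s, hs, hcard⟩ := hinf'.exists_subset_card_eq n
  have h1 := finrank_add_sum_ge hF D s fun P hP => hs hP
  have h2 := hF.riemann_eq (D + ∑ P ∈ s, Finsupp.single P (1 : ℤ))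
    (by rw [degree_add_sum hF, hcard]; exact hn)
  rw [degree_add_sum hF, hcard] at h2
  have h3 : ((finrank K (riemannRochSpace D) + s.card : ℕ) : ℤ) ≤
      (finrank K (riemannRochSpace (D + ∑ P ∈ s, Finsupp.single P (1 : ℤ))) : ℤ) := by
    exact_mod_cast h1
  rw [h2, hcard] at h3
  push_cast at h3
  omega

/-- `ℓ` of linearly equivalent divisors: `ℓ(E) ≤ ℓ(E - div f)` -/
theorem finrank_le_of_ord {f : F} (hf : f ≠ 0) (E E' : Divisor K F)
    (h : ∀ v : Place K F, E' v = E v - v.ord f) :
    finrank K (riemannRochSpace E) ≤ finrank K (riemannRochSpace E') := by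
  haveI := hF.finiteDimensional E'
  have hmem : ∀ x ∈ riemannRochSpace E, x * f ∈ riemannRochSpace E' := by
    intro x hx
    rw [mem_riemannRochSpace_iff] at hx ⊢
    intro v
    rcases hx v with rfl | hv
    · left; rw [zero_mul]
    · by_cases hx0 : x = 0
      · left; rw [hx0, zero_mul]
      · right
        rw [v.ord_mul hx0 hf, h v]
        omega
  let φ : riemannRochSpace E →ₗ[K] riemannRochSpace E' :=
    LinearMap.codRestrict _ ((LinearMap.mulRight K f).domRestrict (riemannRochSpace E))
      (fun x => hmem x x.2)
  have hφ : Function.Injective φ := by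
    intro x x' hxx'
    have h1 : (x : F) * f = (x' : F) * f := congrArg Subtype.val hxx'
    exact Subtype.ext (mul_right_cancel₀ hf h1)
  exact LinearMap.finrank_le_finrank_of_injective hφ

/-- `ℓ(E) = ℓ(E - div f)` -/
theorem finrank_eq_of_ord {f : F} (hf : f ≠ 0) (E E' : Divisor K F)
    (h : ∀ v : Place K F, E' v = E v - v.ord f) :
    finrank K (riemannRochSpace E) = finrank K (riemannRochSpace E') := by
  refine le_antisymm (finrank_le_of_ord hF hf E E' h) ?_
  refine finrank_le_of_ord hF (inv_ne_zero hf) E' E fun v => ?_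
  rw [h v, v.ord_inv]
  ring

end Curve

end Fermat.Agent.S17lib.DivAll

end
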