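/-
S17lib / DivAll / GenPosB  (helper5)  — Project G, block DIV, step D1 (part B)

The base-point free pencil: for a non-principal divisor `Z` of degree zero on a curve of genus
`g ≥ 1` and an infinite set `S` of places there are `C ≥ 0` of degree `g - 1` and `a, b`, all
supported in `S`, such that `D₂ := Z + C + a + b` has `ℓ(D₂) = 2` and `|D₂|` has no base point
(`ℓ(D₂ - P) ≤ 1` for every place `P`).  Only Riemann's theorem is used.
-/
import Mathlib
import Fermat.Agent.S17lib.DivAll.GenPosA

set_option autoImplicit false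
set_option linter.style.haveILetI false
set_option linter.unusedSectionVars false

noncomputable section

namespace Fermat.Agent.S17lib.DivAll

open AlgebraicCurve Module Fermat.Agent.S18lib

variable {K F : Type*} [Field K] [Field F] [Algebra K F] {g : ℕ}

section Curve

variable (hF : IsCurveOfGenus K F g)
include hF

/-- adding general points of `S` to a non-principal class of degree zero keeps `ℓ = 0` up to
degree `g - 1` -/
theorem exists_base {S : Set (Place K F)} (hS : S.Infinite) (Z : Divisor K F)
    (hZdeg : Divisor.degree Z = 0) (hZ : riemannRochSpace Z = ⊥) (j : ℕ) (hj : j + 1 ≤ g) :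
    ∃ C : Divisor K F, 0 ≤ C ∧ (∀ P, C P ≠ 0 → P ∈ S) ∧ Divisor.degree C = j ∧
      riemannRochSpace (Z + C) = ⊥ := by
  classical
  induction j with
  | zero =>
    refine ⟨0, le_rfl, fun P h => absurd rfl h, by simp, ?_⟩
    rw [add_zero]; exact hZ
  | succ j ih =>
    obtain ⟨C, hC0, hCS, hCdeg, hCL⟩ := ih (by omega)
    have hfin := finite_raising hF (Z + C) (by
      rw [map_add, hZdeg, hCdeg, hCL, finrank_bot]
      push_cast
      omega)
    obtain ⟨c, hcS, hc⟩ := (hS.sdiff hfin).nonempty
    have hc' : riemannRochSpace (Z + C + Finsupp.single c 1) ≤ riemannRochSpace (Z + C) := by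
      by_contra h
      exact hc h
    refine ⟨C + Finsupp.single c 1, ?_, ?_, ?_, ?_⟩
    · refine add_nonneg hC0 ?_
      rw [Finsupp.le_def]
      intro v
      rw [Finsupp.zero_apply, Finsupp.single_apply]
      split_ifs <;> omega
    · intro P hP
      by_cases hPc : P = c
      · rw [hPc]; exact hcS
      · apply hCS
        rw [Finsupp.add_apply, Finsupp.single_apply, if_neg (Ne.symm hPc), add_zero] at hP
        exact hP
    · rw [map_add, hCdeg, Divisor.degree_single, hF.deg_eq_one c]
      push_cast
      ring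
    · rw [← add_assoc, eq_bot_iff, ← hCL]
      exact hc'

/-- **the base-point free pencil** -/
theorem exists_pencil (hg : 1 ≤ g) {S : Set (Place K F)} (hS : S.Infinite) (Z : Divisor K F)
    (hZdeg : Divisor.degree Z = 0) (hZ : riemannRochSpace Z = ⊥) :
    ∃ (C : Divisor K F) (a b : Place K F), 0 ≤ C ∧ (∀ P, C P ≠ 0 → P ∈ S) ∧ a ∈ S ∧ b ∈ S ∧
      Divisor.degree C = (g : ℤ) - 1 ∧
      finrank K (riemannRochSpace (Z + C + Finsupp.single a 1 + Finsupp.single b 1)) = 2 ∧
      ∀ P : Place K F, finrank K (riemannRochSpace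
        (Z + C + Finsupp.single a 1 + Finsupp.single b 1 - Finsupp.single P 1)) ≤ 1 := by
  classical
  obtain ⟨C, hC0, hCS, hCdeg, hCL⟩ := exists_base hF hS Z hZdeg hZ (g - 1) (by omega)
  have hCdeg' : Divisor.degree C = (g : ℤ) - 1 := by
    rw [hCdeg]; push_cast [Nat.cast_sub hg]; ring
  obtain ⟨a, haS⟩ := hS.nonempty
  set D1 : Divisor K F := Z + C + Finsupp.single a 1 with hD1
  have hsingle : ∀ P : Place K F, Divisor.degree (Finsupp.single P (1 : ℤ) : Divisor K F) = 1 := by
    intro P
    rw [Divisor.degree_single, hF.deg_eq_one P]; simp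
  have hD1deg : Divisor.degree D1 = g := by
    rw [hD1, map_add, map_add, hZdeg, hCdeg', hsingle]; ring
  haveI := hF.finiteDimensional D1
  -- `ℓ(D1) = 1`
  have h1 : finrank K (riemannRochSpace D1) = 1 := by
    have hle : finrank K (riemannRochSpace D1) ≤ finrank K (riemannRochSpace (Z + C)) + 1 :=
      finrank_add_single_le hF (Z + C) a
    rw [hCL, finrank_bot] at hle
    have hge := hF.riemann_le D1
    rw [hD1deg] at hge
    have : (1 : ℤ) ≤ (finrank K (riemannRochSpace D1) : ℤ) := by linarith
    have h2 : 1 ≤ finrank K (riemannRochSpace D1) := by exact_mod_cast this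
    omega
  -- a generator
  haveI : Nontrivial (riemannRochSpace D1) :=
    Module.nontrivial_of_finrank_pos (R := K) (by rw [h1]; exact Nat.one_pos)
  obtain ⟨⟨ha, hamem⟩, hane⟩ := exists_ne (0 : riemannRochSpace D1)
  have ha0 : ha ≠ 0 := fun h => hane (Subtype.ext h)
  have hgen : ∀ f ∈ riemannRochSpace D1, ∃ c : K, c • ha = f := by
    intro f hf
    obtain ⟨c, hc⟩ := (finrank_eq_one_iff_of_nonzero' (⟨ha, hamem⟩ : riemannRochSpace D1) hane).1 h1
      ⟨f, hf⟩
    exact ⟨c, congrArg Subtype.val hc⟩
  letI := hF.hasPrincipalDivisors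
  set Ea : Divisor K F := divOf (K := K) ha + D1 with hEa
  have hEann : ∀ v, 0 ≤ Ea v := by
    intro v
    have := (Cech.mem_rr_of_ne ha0).1 hamem v
    rw [hEa, Finsupp.add_apply, divOf_apply ha0]
    omega
  -- outside the support of `Ea` there is no section through the point
  have hout : ∀ P : Place K F, Ea P = 0 → riemannRochSpace (D1 - Finsupp.single P 1) = ⊥ := by
    intro P hP
    rw [eq_bot_iff]
    intro f hf
    rw [Submodule.mem_bot]
    obtain ⟨c, rfl⟩ := hgen f (rr_sub_single_le D1 P hf)
    by_cases hc : c = 0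
    · rw [hc, zero_smul]
    exfalso
    have hne : c • ha ≠ 0 := smul_ne_zero hc ha0
    have := (Cech.mem_rr_of_ne hne).1 hf P
    rw [Finsupp.sub_apply, Finsupp.single_eq_same, Algebra.smul_def,
      P.ord_mul ((map_ne_zero _).2 hc) ha0, Cech.ord_const] at this
    rw [hEa, Finsupp.add_apply, divOf_apply ha0] at hP
    omega
  -- on the support of `Ea` the divisor `D1 - P` is special
  have hin : ∀ P : Place K F, Ea P ≠ 0 →
      {Q : Place K F | ¬ riemannRochSpace (D1 - Finsupp.single P 1 + Finsupp.single Q 1) ≤
        riemannRochSpace (D1 - Finsupp.single P 1)}.Finite := by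
    intro P hP
    apply finite_raising hF
    have hmem : ha ∈ riemannRochSpace (D1 - Finsupp.single P 1) := by
      rw [Cech.mem_rr_of_ne ha0]
      intro v
      have h1 := (Cech.mem_rr_of_ne ha0).1 hamem v
      by_cases hv : v = P
      · subst hv
        have h2 := hEann v
        rw [hEa, Finsupp.add_apply, divOf_apply ha0] at hP h2
        rw [Finsupp.sub_apply, Finsupp.single_eq_same]
        omega
      · rw [Finsupp.sub_apply, Finsupp.single_apply, if_neg (Ne.symm hv), sub_zero]
        exact h1
    haveI := hF.finiteDimensional (D1 - Finsupp.single P 1)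
    have hpos : 0 < finrank K (riemannRochSpace (D1 - Finsupp.single P 1)) := by
      rw [Module.finrank_pos_iff_exists_ne_zero]
      exact ⟨⟨ha, hmem⟩, fun h => ha0 (congrArg Subtype.val h)⟩
    rw [map_sub, hD1deg, hsingle]
    have : (0 : ℤ) < (finrank K (riemannRochSpace (D1 - Finsupp.single P 1)) : ℤ) := by
      exact_mod_cast hpos
    linarith
  have hbad : (⋃ P ∈ Ea.support,
      {Q : Place K F | ¬ riemannRochSpace (D1 - Finsupp.single P 1 + Finsupp.single Q 1) ≤
        riemannRochSpace (D1 - Finsupp.single P 1)}).Finite :=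
    Set.Finite.biUnion (Finset.finite_toSet _) fun P hP => hin P (Finsupp.mem_support_iff.1 hP)
  obtain ⟨b, hbS, hb⟩ := (hS.sdiff hbad).nonempty
  refine ⟨C, a, b, hC0, hCS, haS, hbS, hCdeg', ?_, ?_⟩
  · -- `ℓ(D2) = 2`
    show finrank K (riemannRochSpace (D1 + Finsupp.single b 1)) = 2
    have hle : finrank K (riemannRochSpace (D1 + Finsupp.single b 1)) ≤
        finrank K (riemannRochSpace D1) + 1 := finrank_add_single_le hF D1 b
    rw [h1] at hle
    have hge := hF.riemann_le (D1 + Finsupp.single b 1)
    rw [map_add, hD1deg, hsingle] at hge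
    have : (2 : ℤ) ≤ (finrank K (riemannRochSpace (D1 + Finsupp.single b 1)) : ℤ) := by linarith
    have h2 : 2 ≤ finrank K (riemannRochSpace (D1 + Finsupp.single b 1)) := by exact_mod_cast this
    omega
  · intro P
    show finrank K (riemannRochSpace (D1 + Finsupp.single b 1 - Finsupp.single P 1)) ≤ 1
    have hrw : D1 + Finsupp.single b 1 - Finsupp.single P 1 =
        D1 - Finsupp.single P 1 + Finsupp.single b 1 := by abel
    rw [hrw]
    by_cases hP : Ea P = 0
    · have := finrank_add_single_le hF (D1 - Finsupp.single P 1) b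
      rw [hout P hP, finrank_bot] at this
      exact this
    · have hle : riemannRochSpace (D1 - Finsupp.single P 1 + Finsupp.single b 1) ≤
          riemannRochSpace (D1 - Finsupp.single P 1) := by
        by_contra h
        apply hb
        simp only [Set.mem_iUnion, Set.mem_ofPred_eq]
        exact ⟨P, Finsupp.mem_support_iff.2 hP, h⟩
      haveI := hF.finiteDimensional (D1 - Finsupp.single P 1)
      calc finrank K (riemannRochSpace (D1 - Finsupp.single P 1 + Finsupp.single b 1))
          ≤ finrank K (riemannRochSpace (D1 - Finsupp.single P 1)) := Submodule.finrank_mono hle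
        _ ≤ finrank K (riemannRochSpace D1) := Submodule.finrank_mono (rr_sub_single_le D1 P)
        _ = 1 := h1

end Curve

end Fermat.Agent.S17lib.DivAll

end
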