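/-
S17lib / DivAll / GenPosC  (helper5)  — Project G, block DIV, step D1 (part C)

The function of a base-point free pencil, its fibres, and the finiteness of its branch values
(Riemann–Hurwitz lower bound `Tame.RHLower`, on main).
-/
import Mathlib
import Fermat.Agent.S17lib.DivAll.GenPosB
import Fermat.Agent.S18lib.Weak.PolyAdapter
import Fermat.Agent.S18lib.RRgen.Canonical
import Fermat.Agent.ProgramR.RHLocal.Global
import Fermat.Agent.ProgramR.RHLocal.Main

set_option autoImplicit false
set_option linter.style.haveILetI false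
set_option linter.unusedSectionVars false

noncomputable section

namespace Fermat.Agent.S17lib.DivAll

open AlgebraicCurve Module IntermediateField Fermat.Agent.S18lib

variable {K F : Type*} [Field K] [Field F] [Algebra K F] {g : ℕ}

section Curve

variable (hF : IsCurveOfGenus K F g)
include hF

/-- two generators of a base-point free pencil and the pole divisor of their quotient -/
theorem exists_pencil_functions (D2 : Divisor K F)
    (h2 : finrank K (riemannRochSpace D2) = 2)
    (hbpf : ∀ P : Place K F, finrank K (riemannRochSpace (D2 - Finsupp.single P 1)) ≤ 1) :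
    ∃ f0 f1 : F, f0 ≠ 0 ∧ f0 ∈ riemannRochSpace D2 ∧ f1 ∈ riemannRochSpace D2 ∧
      (∀ c : K, f1 - c • f0 ≠ 0) ∧
      ∀ v : Place K F, max (-(v.ord (f1 / f0))) 0 = v.ord f0 + D2 v := by
  classical
  haveI := hF.finiteDimensional D2
  haveI : Nontrivial (riemannRochSpace D2) :=
    Module.nontrivial_of_finrank_pos (R := K) (by rw [h2]; norm_num)
  obtain ⟨⟨f0, hf0mem⟩, hf0ne⟩ := exists_ne (0 : riemannRochSpace D2)
  have hf0 : f0 ≠ 0 := fun h => hf0ne (Subtype.ext h)
  have hspan1 : finrank K ↥(K ∙ f0) = 1 := finrank_span_singleton hf0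
  have hnle : ¬ riemannRochSpace D2 ≤ K ∙ f0 := by
    intro hle
    have := Submodule.finrank_mono hle
    omega
  obtain ⟨f1, hf1mem, hf1not⟩ := SetLike.not_le_iff_exists.1 hnle
  have hindep : ∀ c : K, f1 - c • f0 ≠ 0 := by
    intro c hc
    apply hf1not
    rw [sub_eq_zero] at hc
    rw [hc]
    exact Submodule.smul_mem _ c (Submodule.mem_span_singleton_self f0)
  have hf1 : f1 ≠ 0 := by
    have := hindep 0
    rwa [zero_smul, sub_zero] at this
  refine ⟨f0, f1, hf0, hf0mem, hf1mem, hindep, fun v => ?_⟩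
  have h0 := (Cech.mem_rr_of_ne hf0).1 hf0mem
  have h1 := (Cech.mem_rr_of_ne hf1).1 hf1mem
  have hord : v.ord (f1 / f0) = v.ord f1 - v.ord f0 := by
    rw [div_eq_mul_inv, v.ord_mul hf1 (inv_ne_zero hf0), v.ord_inv]; ring
  rw [hord]
  have hA := h0 v
  have hB := h1 v
  apply le_antisymm
  · apply max_le <;> omega
  · by_contra hlt
    push Not at hlt
    have hlt1 : 0 < v.ord f0 + D2 v := lt_of_le_of_lt (le_max_right _ _) hlt
    have hlt2 : -(v.ord f1 - v.ord f0) < v.ord f0 + D2 v := lt_of_le_of_lt (le_max_left _ _) hlt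
    -- both generators lie in `L(D2 - v)`
    have hmem : ∀ f : F, f ≠ 0 → (∀ w, -D2 w ≤ w.ord f) → -D2 v + 1 ≤ v.ord f →
        f ∈ riemannRochSpace (D2 - Finsupp.single v 1) := by
      intro f hf hfw hfv
      rw [Cech.mem_rr_of_ne hf]
      intro w
      by_cases hw : w = v
      · subst hw
        rw [Finsupp.sub_apply, Finsupp.single_eq_same]
        omega
      · rw [Finsupp.sub_apply, Finsupp.single_apply, if_neg (Ne.symm hw), sub_zero]
        exact hfw w
    have hm0 := hmem f0 hf0 h0 (by omega)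
    have hm1 := hmem f1 hf1 h1 (by omega)
    haveI := hF.finiteDimensional (D2 - Finsupp.single v 1)
    have hlt' : K ∙ f0 < riemannRochSpace (D2 - Finsupp.single v 1) := by
      refine lt_of_le_of_ne ?_ ?_
      · rw [Submodule.span_singleton_le_iff_mem]; exact hm0
      · intro heq
        exact hf1not (heq ▸ hm1)
    have := Submodule.finrank_lt_finrank_of_lt hlt'
    have := hbpf v
    omega

/-- the fibres of the quotient of two generators of a base-point free pencil -/
theorem max_ord_sub_eq {D2 : Divisor K F} {f0 f1 : F} (hf0 : f0 ≠ 0)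
    (hpole : ∀ v : Place K F, max (-(v.ord (f1 / f0))) 0 = v.ord f0 + D2 v) (c : K)
    (hc : f1 - c • f0 ≠ 0) (w : Place K F) :
    max (w.ord (f1 / f0 - algebraMap K F c)) 0 = w.ord (f1 - c • f0) + D2 w := by
  have hsub : f1 / f0 - algebraMap K F c = (f1 - c • f0) / f0 := by
    rw [Algebra.smul_def]; field_simp
  have hne : f1 / f0 - algebraMap K F c ≠ 0 := by
    rw [hsub]; exact div_ne_zero hc hf0
  have hord : w.ord (f1 / f0 - algebraMap K F c) = w.ord (f1 - c • f0) - w.ord f0 := by
    rw [hsub, div_eq_mul_inv, w.ord_mul hc (inv_ne_zero hf0), w.ord_inv]; ring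
  have hp := hpole w
  rcases lt_or_ge (w.ord (f1 / f0)) 0 with hneg | hpos
  · have h1 := Tame.ord_sub_const_of_neg w c hneg
    rw [max_eq_left (by omega)] at hp
    rw [h1, max_eq_right hneg.le]
    rw [h1] at hord
    omega
  · have h1 := Tame.ord_sub_const_nonneg w c hpos hne
    rw [max_eq_right (by omega)] at hp
    rw [max_eq_left h1]
    omega

omit hF in
/-- the number of zeros of a function is at most the degree of its zero divisor, with a gain at
every multiple zero -/
theorem card_zerosOf_add_le [HasPrincipalDivisors K F] (hdeg : ∀ v : Place K F, v.deg = 1) (f : F)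
    (e : ℕ) (he : e = 0 ∨ ∃ v : Place K F, (e : ℤ) + 1 ≤ v.ord f) :
    (Nat.card (Tame.zerosOf (K := K) f) : ℤ) + e ≤ Divisor.degree (Tame.zeroDiv (K := K) f) := by
  classical
  have hcard : Nat.card (Tame.zerosOf (K := K) f) = (Tame.zeroDiv (K := K) f).support.card := by
    rw [Tame.zerosOf_eq_support, Nat.card_coe_set_eq, Set.ncard_coe_finset]
  rw [hcard, Cech.degree_eq_sum']
  have hterm : ∀ v ∈ (Tame.zeroDiv (K := K) f).support,
      (1 : ℤ) ≤ Tame.zeroDiv (K := K) f v * (v.deg : ℤ) := by
    intro v hv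
    rw [hdeg v, Tame.zeroDiv_apply]
    rw [Tame.mem_support_zeroDiv] at hv
    rw [max_eq_left hv.le]
    push_cast
    omega
  rcases he with rfl | ⟨v0, hv0⟩
  · calc ((Tame.zeroDiv (K := K) f).support.card : ℤ) + (0 : ℕ)
        = ∑ _v ∈ (Tame.zeroDiv (K := K) f).support, (1 : ℤ) := by simp
      _ ≤ _ := Finset.sum_le_sum hterm
  · have hv0mem : v0 ∈ (Tame.zeroDiv (K := K) f).support := by
      rw [Tame.mem_support_zeroDiv]; omega
    have hsplit := Finset.add_sum_erase (Tame.zeroDiv (K := K) f).support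
      (fun v => Tame.zeroDiv (K := K) f v * (v.deg : ℤ)) hv0mem
    have h1 : ∑ _v ∈ (Tame.zeroDiv (K := K) f).support.erase v0, (1 : ℤ) ≤
        ∑ v ∈ (Tame.zeroDiv (K := K) f).support.erase v0,
          Tame.zeroDiv (K := K) f v * (v.deg : ℤ) :=
      Finset.sum_le_sum fun v hv => hterm v (Finset.mem_of_mem_erase hv)
    have h2 : (e : ℤ) + 1 ≤ Tame.zeroDiv (K := K) f v0 * (v0.deg : ℤ) := by
      rw [hdeg v0, Tame.zeroDiv_apply, max_eq_left (by omega)]
      push_cast
      omega
    have h3 : ((Tame.zeroDiv (K := K) f).support.erase v0).card + 1 =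
        (Tame.zeroDiv (K := K) f).support.card := Finset.card_erase_add_one hv0mem
    simp only [Finset.sum_const, nsmul_eq_mul, mul_one] at h1
    rw [← hsplit]
    have h4 : ((Tame.zeroDiv (K := K) f).support.card : ℤ) =
        ((Tame.zeroDiv (K := K) f).support.erase v0).card + 1 := by
      exact_mod_cast h3.symm
    omega

/-- **finiteness of the branch values** of a non-constant function (characteristic zero) -/
theorem finite_branch_values [IsAlgClosed K] [CharZero K] (x₀ : F) [FiniteDimensional K⟮x₀⟯ F]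
    (φ : F) (hφ : ∃ v : Place K F, v.ord φ ≠ 0) :
    {b : K | ∃ v : Place K F, 2 ≤ v.ord (φ - algebraMap K F b)}.Finite := by
  classical
  letI := hF.hasPrincipalDivisors
  obtain ⟨v₀, hv₀⟩ := hφ
  have hφt : Transcendental K φ := ProgramR.RHLocal.transcendental_of_ord_ne_zero v₀ hv₀
  haveI : FiniteDimensional K⟮φ⟯ F :=
    ProgramR.RHLocal.finiteDimensional_adjoin_of_transcendental (x := x₀) hφt
  have hn := degree_poleDiv_eq_finrank_adjoin K hφt (F := F)
  have hRH := RRgen.Canonical.rhLower_genusOf K hφt (F := F)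
  rw [RRgen.Canonical.genusOf_eq_of_isCurveOfGenus K hφt hF] at hRH
  set n : ℕ := finrank K⟮φ⟯ F with hndef
  have hne : ∀ b : K, φ - algebraMap K F b ≠ 0 := by
    intro b hb
    rw [sub_eq_zero] at hb
    apply hv₀
    rw [hb]
    exact Cech.ord_const v₀ b
  have hdegz : ∀ b : K, Divisor.degree (Tame.zeroDiv (K := K) (φ - algebraMap K F b)) = n := by
    intro b
    rw [Tame.degree_zeroDiv, Tame.poleDiv_sub_const φ b (hne b), hn]
  by_contra hinf
  have hinf' : Set.Infinite {b : K | ∃ v : Place K F, 2 ≤ v.ord (φ - algebraMap K F b)} := hinf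
  obtain ⟨T, hT, hTcard⟩ := hinf'.exists_subset_card_eq (2 * g + 2 * n)
  have h1 := hRH T
  have hsum : (T.card : ℤ) ≤ ∑ b ∈ T, ((n : ℤ) -
      Nat.card (Tame.zerosOf (K := K) (φ - algebraMap K F b))) := by
    have : ∀ b ∈ T, (1 : ℤ) ≤ (n : ℤ) -
        Nat.card (Tame.zerosOf (K := K) (φ - algebraMap K F b)) := by
      intro b hb
      obtain ⟨v, hv⟩ := hT hb
      have := card_zerosOf_add_le hF.deg_eq_one (φ - algebraMap K F b) 1
        (Or.inr ⟨v, by push_cast; omega⟩)
      rw [hdegz b] at this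
      push_cast at this
      omega
    calc (T.card : ℤ) = ∑ _b ∈ T, (1 : ℤ) := by simp
      _ ≤ _ := Finset.sum_le_sum this
  have hpoles : (Nat.card (Tame.polesOf (K := K) φ) : ℤ) ≤ n := by
    have hφ0 : φ ≠ 0 := by
      rintro rfl
      exact hv₀ v₀.ord_zero
    have h := card_zerosOf_add_le hF.deg_eq_one φ⁻¹ 0 (Or.inl rfl)
    have hset : Tame.zerosOf (K := K) φ⁻¹ = Tame.polesOf (K := K) φ := by
      ext v
      rw [Tame.mem_zerosOf, Tame.mem_polesOf, v.ord_inv]
      omega
    have hdiv : Tame.zeroDiv (K := K) φ⁻¹ = Tame.poleDiv (K := K) φ := by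
      ext v
      rw [Tame.zeroDiv_apply, Tame.poleDiv_apply, v.ord_inv]
    rw [hset, hdiv, hn] at h
    push_cast at h
    omega
  rw [hTcard] at hsum
  push_cast at hsum
  omega

end Curve

end Fermat.Agent.S17lib.DivAll

end
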