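/-
S17lib / DivAll / GenPos  (helper5)  — Project G, block DIV, step D1

**General position of a representative** (helper1's pencil trick, base-point free version; only
Riemann's theorem and the Riemann–Hurwitz lower bound are used — no duality, no differentials):

on a curve of genus `g ≥ 1` over an algebraically closed field of characteristic zero, for a
non-principal divisor `Z` of degree zero, an infinite set `S` of places ("constant points") and a
finite set `T` of places, there are a divisor `B` of degree `g` supported in `S` and an effective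
divisor `E` of degree `g`, linearly equivalent to `Z + B` by an explicit function, such that `E` is
multiplicity free, disjoint from `T` and from the support of `B`, and `ℓ(E) = 1`.
-/
import Mathlib
import Fermat.Agent.S17lib.DivAll.GenPosC

set_option autoImplicit false
set_option linter.style.haveILetI false
set_option linter.unusedSectionVars false

noncomputable section

namespace Fermat.Agent.S17lib.DivAll

open AlgebraicCurve Module IntermediateField Fermat.Agent.S18lib

variable {K F : Type*} [Field K] [Field F] [Algebra K F] {g : ℕ}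

/-- the places where a function takes the same value as at a given place form a finite set -/
theorem finite_same_value [HasPrincipalDivisors K F] (φ : F)
    (v : Place K F) :
    {P : Place K F | ∃ μ : K, 0 < v.ord (φ - algebraMap K F μ) ∧
      0 < P.ord (φ - algebraMap K F μ)}.Finite := by
  by_cases h : ∃ μ₀ : K, 0 < v.ord (φ - algebraMap K F μ₀)
  · obtain ⟨μ₀, hμ₀⟩ := h
    refine (Tame.finite_zerosOf (K := K) (φ - algebraMap K F μ₀)).subset ?_
    rintro P ⟨μ, hμv, hμP⟩
    have hμ : μ = μ₀ := by
      by_contra hne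
      have hne' : μ₀ - μ ≠ 0 := sub_ne_zero.2 (Ne.symm hne)
      have h1 : (φ - algebraMap K F μ) - (φ - algebraMap K F μ₀) = algebraMap K F (μ₀ - μ) := by
        rw [map_sub]; ring
      have h2 : v.ord (algebraMap K F (μ₀ - μ)) = 0 := Cech.ord_const v _
      have h3 := Cech.ord_add_ge v (f := φ - algebraMap K F μ) (g := -(φ - algebraMap K F μ₀))
        (n := 1) (Or.inr (by omega)) (Or.inr (by rw [Cech.ord_neg]; omega))
      rw [← sub_eq_add_neg, h1] at h3
      rcases h3 with h3 | h3
      · exact (map_ne_zero _).2 hne' h3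
      · omega
    rw [Tame.mem_zerosOf, ← hμ]
    exact hμP
  · convert Set.finite_empty
    rw [Set.eq_empty_iff_forall_notMem]
    rintro P ⟨μ, hμv, -⟩
    exact h ⟨μ, hμv⟩

/-- **D1: general position of a representative.** -/
theorem exists_general_rep (hF : IsCurveOfGenus K F g) [IsAlgClosed K] [CharZero K] (hg : 1 ≤ g)
    (x₀ : F) [FiniteDimensional K⟮x₀⟯ F] {S : Set (Place K F)} (hS : S.Infinite)
    (T : Finset (Place K F)) (Z : Divisor K F) (hZdeg : Divisor.degree Z = 0)
    (hZ : riemannRochSpace Z = ⊥) :
    ∃ (B E : Divisor K F) (u : F), u ≠ 0 ∧ (∀ P, B P ≠ 0 → P ∈ S) ∧ Divisor.degree B = g ∧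
      0 ≤ E ∧ (∀ P, E P ≤ 1) ∧ Divisor.degree E = g ∧ (∀ P ∈ T, E P = 0) ∧
      (∀ P, B P ≠ 0 → E P = 0) ∧ finrank K (riemannRochSpace E) = 1 ∧
      ∀ P : Place K F, P.ord u = E P - B P - Z P := by
  classical
  letI := hF.hasPrincipalDivisors
  obtain ⟨C, a, b, hC0, hCS, haS, hbS, hCdeg, h2, hbpf⟩ := exists_pencil hF hg hS Z hZdeg hZ
  set D2 : Divisor K F := Z + C + Finsupp.single a 1 + Finsupp.single b 1 with hD2
  obtain ⟨f0, f1, hf0, hf0mem, hf1mem, hindep, hpole⟩ := exists_pencil_functions hF D2 h2 hbpf
  set φ : F := f1 / f0 with hφdef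
  have hsingle : ∀ P : Place K F, Divisor.degree (Finsupp.single P (1 : ℤ) : Divisor K F) = 1 := by
    intro P
    rw [Divisor.degree_single, hF.deg_eq_one P]; simp
  have hD2deg : Divisor.degree D2 = (g : ℤ) + 1 := by
    rw [hD2, map_add, map_add, map_add, hZdeg, hCdeg, hsingle, hsingle]; ring
  -- `φ` is not constant
  have hφnc : ∀ c : K, φ ≠ algebraMap K F c := by
    intro c hc
    apply hindep c
    rw [hφdef, div_eq_iff hf0] at hc
    rw [hc, Algebra.smul_def, sub_self]
  -- `φ` has a pole
  have hφpole : ∃ v : Place K F, v.ord φ ≠ 0 := by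
    by_contra hno
    push Not at hno
    have hzero : ∀ v : Place K F, (divOf (K := K) f0 + D2) v = 0 := by
      intro v
      have := hpole v
      rw [hno v] at this
      rw [Finsupp.add_apply, divOf_apply hf0]
      simpa using this.symm
    have : Divisor.degree (divOf (K := K) f0 + D2) = 0 := by
      have h0 : divOf (K := K) f0 + D2 = 0 := by
        ext v; rw [hzero v]; rfl
      rw [h0, map_zero]
    rw [map_add, degree_divOf, hD2deg] at this
    omega
  -- the bad sets
  have hBV := finite_branch_values hF x₀ φ hφpole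
  set T' : Finset (Place K F) := T ∪ C.support ∪ {a, b} with hT'
  have hbad1 : (Tame.polesOf (K := K) φ).Finite := Tame.finite_polesOf φ
  have hbad2 : (⋃ β ∈ {β : K | ∃ v : Place K F, 2 ≤ v.ord (φ - algebraMap K F β)},
      Tame.zerosOf (K := K) (φ - algebraMap K F β)).Finite :=
    Set.Finite.biUnion hBV fun β _ => Tame.finite_zerosOf _
  have hbad3 : (⋃ v ∈ T', {P : Place K F | ∃ μ : K, 0 < v.ord (φ - algebraMap K F μ) ∧
      0 < P.ord (φ - algebraMap K F μ)}).Finite :=
    Set.Finite.biUnion (Finset.finite_toSet _) fun v _ => finite_same_value φ v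
  have hbad4 : (T' : Set (Place K F)).Finite := Finset.finite_toSet _
  obtain ⟨c, hcS, hc⟩ := (hS.sdiff (((hbad1.union hbad2).union hbad3).union hbad4)).nonempty
  simp only [Set.mem_union, not_or] at hc
  obtain ⟨⟨⟨hc1, hc2⟩, hc3⟩, hc4⟩ := hc
  -- the value of `φ` at `c`
  have hcreg : φ ∈ c.toValuationSubring := by
    apply ProgramR.FF.mem_of_ord_nonneg
    rw [Tame.mem_polesOf] at hc1
    omega
  obtain ⟨lam, hlam⟩ := Cech.exists_value_of_deg_eq_one c (hF.deg_eq_one c) hcreg
  have hlam' : 1 ≤ c.ord (φ - algebraMap K F lam) := hlam.resolve_left (hφnc lam)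
  set u : F := f1 - lam • f0 with hu
  have hu0 : u ≠ 0 := hindep lam
  have hM : ∀ w : Place K F, max (w.ord (φ - algebraMap K F lam)) 0 = w.ord u + D2 w :=
    fun w => max_ord_sub_eq hF hf0 hpole lam hu0 w
  -- `lam` is not a branch value
  have hnb : ∀ w : Place K F, w.ord (φ - algebraMap K F lam) ≤ 1 := by
    intro w
    by_contra hw
    push Not at hw
    apply hc2
    simp only [Set.mem_iUnion, Set.mem_ofPred_eq]
    exact ⟨lam, ⟨w, by omega⟩, by rw [Tame.mem_zerosOf]; omega⟩
  -- points of `T'` are not in the fibre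
  have hT'0 : ∀ w ∈ T', w.ord (φ - algebraMap K F lam) ≤ 0 := by
    intro w hw
    by_contra hpos
    push Not at hpos
    apply hc3
    simp only [Set.mem_iUnion, Set.mem_ofPred_eq]
    exact ⟨w, hw, lam, hpos, by omega⟩
  have hcT' : c ∉ T' := fun h => hc4 (Finset.mem_coe.2 h)
  -- the divisors
  set E : Divisor K F := divOf (K := K) u + D2 - Finsupp.single c 1 with hE
  set B : Divisor K F := C + Finsupp.single a 1 + Finsupp.single b 1 - Finsupp.single c 1 with hB
  have hEapp : ∀ w : Place K F, E w = max (w.ord (φ - algebraMap K F lam)) 0 -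
      (if c = w then 1 else 0) := by
    intro w
    rw [hE, Finsupp.sub_apply, Finsupp.add_apply, divOf_apply hu0, hM w, Finsupp.single_apply]
  have hEc : E c = 0 := by
    rw [hEapp c, if_pos rfl, max_eq_left (by omega)]
    have := hnb c
    omega
  have hET' : ∀ w ∈ T', E w = 0 := by
    intro w hw
    have hwc : c ≠ w := fun h => hcT' (h ▸ hw)
    rw [hEapp w, if_neg hwc, max_eq_right (hT'0 w hw), sub_zero]
  have hBsupp : ∀ P : Place K F, B P ≠ 0 → C P ≠ 0 ∨ P = a ∨ P = b ∨ P = c := by
    intro P hP
    by_contra hno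
    push Not at hno
    obtain ⟨hPC, hPa, hPb, hPc⟩ := hno
    apply hP
    rw [hB, Finsupp.sub_apply, Finsupp.add_apply, Finsupp.add_apply, hPC,
      Finsupp.single_apply, Finsupp.single_apply, Finsupp.single_apply,
      if_neg (Ne.symm hPa), if_neg (Ne.symm hPb), if_neg (Ne.symm hPc)]
    ring
  have haT' : a ∈ T' := by
    rw [hT']; exact Finset.mem_union_right _ (Finset.mem_insert_self a _)
  have hbT' : b ∈ T' := by
    rw [hT']
    exact Finset.mem_union_right _ (Finset.mem_insert_of_mem (Finset.mem_singleton_self b))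
  have hCT' : ∀ P : Place K F, C P ≠ 0 → P ∈ T' := by
    intro P hP
    rw [hT']
    exact Finset.mem_union_left _ (Finset.mem_union_right _ (Finsupp.mem_support_iff.2 hP))
  have hTT' : ∀ P ∈ T, P ∈ T' := by
    intro P hP
    rw [hT']
    exact Finset.mem_union_left _ (Finset.mem_union_left _ hP)
  have hDdeg : Divisor.degree (divOf (K := K) u + D2) = (g : ℤ) + 1 := by
    rw [map_add, degree_divOf, hD2deg, zero_add]
  refine ⟨B, E, u, hu0, ?_, ?_, ?_, ?_, ?_, ?_, ?_, ?_, ?_⟩
  · -- support of `B` in `S`
    intro P hP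
    rcases hBsupp P hP with h | h | h | h
    · exact hCS P h
    · rw [h]; exact haS
    · rw [h]; exact hbS
    · rw [h]; exact hcS
  · -- degree of `B`
    rw [hB, map_sub, map_add, map_add, hCdeg, hsingle, hsingle, hsingle]; ring
  · -- `E ≥ 0`
    rw [Finsupp.le_def]
    intro w
    rw [Finsupp.zero_apply, hEapp w]
    by_cases hw : c = w
    · subst hw
      rw [if_pos rfl, max_eq_left (by omega)]
      omega
    · rw [if_neg hw, sub_zero]
      exact le_max_right _ _
  · -- multiplicity free
    intro w
    rw [hEapp w]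
    have h1 := hnb w
    have h2 : max (w.ord (φ - algebraMap K F lam)) 0 ≤ 1 := max_le h1 (by norm_num)
    split_ifs <;> omega
  · -- degree of `E`
    rw [hE, map_sub, hDdeg, hsingle]; ring
  · -- off `T`
    intro P hP
    exact hET' P (hTT' P hP)
  · -- off the support of `B`
    intro P hP
    rcases hBsupp P hP with h | h | h | h
    · exact hET' P (hCT' P h)
    · rw [h]; exact hET' a haT'
    · rw [h]; exact hET' b hbT'
    · rw [h]; exact hEc
  · -- `ℓ(E) = 1`
    have h1 : finrank K (riemannRochSpace (D2 - Finsupp.single c 1)) =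
        finrank K (riemannRochSpace E) := by
      apply finrank_eq_of_ord hF (inv_ne_zero hu0)
      intro v
      rw [hE, Finsupp.sub_apply, Finsupp.add_apply, divOf_apply hu0, Finsupp.sub_apply, v.ord_inv]
      ring
    rw [← h1]
    have hle := hbpf c
    have hge := hF.riemann_le (D2 - Finsupp.single c 1)
    rw [map_sub, hD2deg, hsingle] at hge
    have : (1 : ℤ) ≤ (finrank K (riemannRochSpace (D2 - Finsupp.single c 1)) : ℤ) := by linarith
    have h3 : 1 ≤ finrank K (riemannRochSpace (D2 - Finsupp.single c 1)) := by exact_mod_cast this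
    exact le_antisymm hle h3
  · -- the function
    intro P
    rw [hE, hB, hD2]
    simp only [Finsupp.sub_apply, Finsupp.add_apply, divOf_apply hu0]
    ring

end Fermat.Agent.S17lib.DivAll

end
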