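/-
S17lib / DivAll / Descent  (helper5)  — Project G, block DIV, step (W2)

**Diagonal descent of `DivAt`**: for every ultrafilter `V` and every algebraically closed field `K`
of characteristic zero, `DivAt (Germ V K) n → DivAt K n`  (copy of `S15lib.U1.belyiDivAt_of_germ`
without the Belyi paragraphs: the diagonal function field `F' = FD V K F y` over `K* = Germ V K`,
`D' = Σ_P D(P) · placeOf (const P)`; a solution `f'` of `D' ≡ div f' mod n` has components `f_i` with
`D ≡ div f_i mod n` for almost all `i`).
-/
import Mathlib
import Fermat.Agent.S17lib.DivAll.Defs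
import Fermat.Agent.S27lib.TD

set_option autoImplicit false
set_option linter.unusedSectionVars false
set_option linter.style.haveILetI false

noncomputable section

namespace Fermat.Agent.S17lib.DivAll

open Filter IntermediateField AlgebraicCurve Fermat.Agent.S18lib Fermat.Agent.S27lib
  Fermat.Agent.S27lib.U Fermat.Agent.S27lib.U.Diag Fermat.Agent.S15lib

universe u w

variable {ι : Type w} (V : Ultrafilter ι) (K : Type u) [Field K] [IsAlgClosed K] [CharZero K]

/-- **(TD)** diagonal descent of the working statement -/
theorem divAt_of_germ {n : ℕ}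
    (H : DivAt.{max u w, max u w} (Germ (V : Filter ι) K) n) : DivAt.{u, u} K n := by
  intro F _ _ β hβ D hD
  classical
  have hx := hβ.transcendental
  haveI := hβ.finite
  have hF := RRgen.Canonical.isCurveOfGenus_genusOf K hx
  letI := RRgen.Canonical.ratFuncAlgebra K hx
  haveI := RRgen.Canonical.isScalarTower_const_ratFunc K hx
  haveI := RRgen.Canonical.finiteDimensional_ratFunc K hx
  haveI : CharZero (RatFunc K) :=
    charZero_of_injective_algebraMap (algebraMap K (RatFunc K)).injective
  obtain ⟨y, hy⟩ := Field.exists_primitive_element (RatFunc K) F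
  letI := hF.hasPrincipalDivisors
  have hx' := transcendental_xE (KS V K) (FD V K F y)
  haveI := finiteDimensional_adjoin_xE (KS V K) (FD V K F y)
  have hF' := RRgen.Canonical.isCurveOfGenus_genusOf (KS V K) hx'
  set S := diagFam V K F hF.deg_eq_one hy with hS
  -- the places of `F'` attached to the places of `F`
  let R' : Place K F → Place (KS V K) (FD V K F y) := fun P => S.placeOf (fun _ => P)
  have hcomp : ∀ P : Place K F, ∀ᶠ i in (V : Filter ι), S.compPlace hF' (R' P) i = P := fun P =>
    (S.eventually_eq_compPlace hF' (fun _ => P)).mono fun i hi => hi.symm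
  set D' : Divisor (KS V K) (FD V K F y) := Finsupp.mapDomain R' D with hD'
  -- degree
  have hdegAll : ∀ E : Divisor K F,
      Divisor.degree (Finsupp.mapDomain R' E : Divisor (KS V K) (FD V K F y)) =
        Divisor.degree E := by
    intro E
    induction E using Finsupp.induction with
    | zero => rw [Finsupp.mapDomain_zero, map_zero, map_zero]
    | single_add P m E _ _ ih =>
      rw [Finsupp.mapDomain_add, map_add, map_add, ih, Finsupp.mapDomain_single,
        Divisor.degree_single, Divisor.degree_single, hF'.deg_eq_one, hF.deg_eq_one]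
  have hdeg' : Divisor.degree D' = 0 := by rw [hD', hdegAll, hD]
  -- the solution over the ultrapower
  obtain ⟨f', hf'0, hdiv⟩ := H (FD V K F y) (xE (KS V K) (FD V K F y)) ⟨hx', inferInstance⟩
    D' hdeg'
  obtain ⟨Df', hDf', -⟩ := hF'.hasPrincipalDivisors.exists_divisor f' hf'0
  obtain ⟨E', hE'⟩ := U1.exists_nsmul_eq_of_dvd (n := n) (D' - Df') (fun R => by
    rw [Finsupp.sub_apply, hDf' R]
    exact hdiv R)
  -- components
  have hD'comp : ∀ᶠ i in (V : Filter ι), S.compDiv hF' i D' = D := by
    have hall : ∀ᶠ i in (V : Filter ι), ∀ P ∈ D.support, S.compPlace hF' (R' P) i = P := by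
      rw [Finset.eventually_all]
      exact fun P _ => hcomp P
    filter_upwards [hall] with i hi
    rw [UFam.compDiv, hD', ← Finsupp.mapDomain_comp]
    have h1 : Finsupp.mapDomain ((fun R => S.compPlace hF' R i) ∘ R') D =
        Finsupp.mapDomain id D := Finsupp.mapDomain_congr fun P hP => hi P hP
    rw [h1, Finsupp.mapDomain_id]
  obtain ⟨i, h1, h2, h3⟩ := ((S.comp_ne_zero hf'0).and
    ((S.compDiv_divisor hF' hf'0 hDf').and hD'comp)).exists
  refine ⟨S.comp f' i, h1, fun P => ?_⟩
  have h4 : S.compDiv hF' i (D' - Df') = n • S.compDiv hF' i E' := by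
    rw [hE', UFam.compDiv_nsmul]
  rw [UFam.compDiv_sub, h3] at h4
  have h5 : D P - (S.compDiv hF' i Df') P = n • (S.compDiv hF' i E') P :=
    DFunLike.congr_fun h4 P
  rw [h2 P, nsmul_eq_mul] at h5
  exact ⟨_, h5⟩

end Fermat.Agent.S17lib.DivAll

end
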