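/-
S17lib / DivAll / Defs  (helper5)  — Project G, block DIV, step (W2)

**Divisibility of `Pic⁰` over every algebraically closed field of characteristic zero**, working
statement and the single-curve normalisation.

* `DivAt K n` : on every function field `F / K` with a separating element, every divisor of degree
  zero is, modulo `n`, the divisor of a function (= `S15lib.U1.BelyiDivAt` without the Belyi
  function and without the support condition);
* `divAt_of_divisibleAt`, `divisibleAt_of_divAt` : equivalence with `S15lib.Weil.DivisibleAt`;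
* `exists_rep_div` : normalisation on a single curve of genus `g`: a solution `f` of
  `D ≡ div f mod n` can be replaced by `u` with `div u + D + n g P₀ = n A`, `A ≥ 0`
  (so that `u` lies in the FIXED Riemann–Roch space `L(D + n g P₀)`).
-/
import Mathlib
import Fermat.Agent.S15lib.U1.Descent
import Fermat.Agent.S15lib.Weil.NonDeg

set_option autoImplicit false
set_option linter.unusedSectionVars false
set_option linter.style.haveILetI false

noncomputable section

namespace Fermat.Agent.S17lib.DivAll

open AlgebraicCurve IntermediateField Fermat.Agent.S18lib Fermat.Agent.S27lib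
  Fermat.Agent.S27lib.U Fermat.Agent.ProgramR Fermat.Agent.S15lib

universe u v

/-- **the working statement**: on every function field `F / K` (in the universe `v`) with a
separating element, every divisor of degree zero is congruent modulo `n` to a principal divisor. -/
def DivAt (K : Type u) [Field K] (n : ℕ) : Prop :=
  ∀ (F : Type v) [Field F] [Algebra K F] (x : F), Belyi.IsCov K x →
    ∀ D : Divisor K F, Divisor.degree D = 0 →
      ∃ f : F, f ≠ 0 ∧ ∀ P : Place K F, (n : ℤ) ∣ D P - P.ord f

section Equiv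

variable {K : Type u} [Field K] [IsAlgClosed K] [CharZero K]

/-- divisibility of `Pic⁰` gives the working statement -/
theorem divAt_of_divisibleAt {n : ℕ} (h : Weil.DivisibleAt.{u, v} K n) : DivAt.{u, v} K n := by
  intro F _ _ x hx D hD
  haveI := hx.finite
  have hF := RRgen.Canonical.isCurveOfGenus_genusOf K hx.transcendental
  haveI := hF.hasPrincipalDivisors
  obtain ⟨w, hw⟩ := h F x hx.transcendental hx.finite (Pic0.mk ⟨D, hD⟩)
  obtain ⟨⟨E, hE⟩, rfl⟩ := Pic0.mk_surjective w
  have h1 : n • Pic0.mk (⟨E, hE⟩ : Divisor.degZero (K := K) (F := F)) =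
      Pic0.mk (n • (⟨E, hE⟩ : Divisor.degZero (K := K) (F := F))) := rfl
  rw [h1, mk_eq_mk_iff] at hw
  obtain ⟨f, hf0, hf⟩ := hw
  refine ⟨f⁻¹, inv_ne_zero hf0, fun P => ?_⟩
  have h2 := hf P
  rw [Finsupp.sub_apply, AddSubgroup.coe_nsmul] at h2
  have h3 : ((n • E : Divisor K F)) P = (n : ℤ) * E P := by
    rw [Finsupp.smul_apply, nsmul_eq_mul]
  rw [P.ord_inv]
  refine ⟨E P, ?_⟩
  have h4 : (n • E : Divisor K F) P - D P = P.ord f := h2
  rw [h3] at h4
  omega

/-- the working statement gives divisibility of `Pic⁰` -/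
theorem divisibleAt_of_divAt {n : ℕ} (hn : 0 < n) (h : DivAt.{u, v} K n) :
    Weil.DivisibleAt.{u, v} K n := by
  intro F _ _ x hx hfin z
  haveI := hfin
  have hF := RRgen.Canonical.isCurveOfGenus_genusOf K hx
  haveI := hF.hasPrincipalDivisors
  obtain ⟨⟨D, hD⟩, rfl⟩ := Pic0.mk_surjective z
  obtain ⟨f, hf0, hdiv⟩ := h F x ⟨hx, hfin⟩ D hD
  obtain ⟨Df, hDf, hDfdeg⟩ := HasPrincipalDivisors.exists_divisor (K := K) f hf0
  obtain ⟨E, hE⟩ := U1.exists_nsmul_eq_of_dvd (n := n) (D - Df) (fun R => by
    rw [Finsupp.sub_apply, hDf R]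
    exact hdiv R)
  have hEdeg : Divisor.degree E = 0 := by
    have h1 : Divisor.degree (D - Df) = 0 := by
      rw [map_sub, hDfdeg, sub_zero]
      exact hD
    rw [hE, map_nsmul, nsmul_eq_mul] at h1
    rcases mul_eq_zero.1 h1 with h2 | h2
    · exact absurd (by exact_mod_cast h2) hn.ne'
    · exact h2
  refine ⟨Pic0.mk ⟨E, hEdeg⟩, ?_⟩
  have h1 : n • Pic0.mk (⟨E, hEdeg⟩ : Divisor.degZero (K := K) (F := F)) =
      Pic0.mk (n • (⟨E, hEdeg⟩ : Divisor.degZero (K := K) (F := F))) := rfl
  rw [h1, mk_eq_mk_iff]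
  have h2 : ((n • (⟨E, hEdeg⟩ : Divisor.degZero (K := K) (F := F)) :
      Divisor.degZero (K := K) (F := F)) : Divisor K F) - D = -Df := by
    rw [AddSubgroup.coe_nsmul]
    show n • E - D = -Df
    rw [← hE]
    abel
  rw [h2]
  exact (Divisor.principal (K := K) (F := F)).neg_mem ⟨f, hf0, hDf⟩

end Equiv

/-! ### normalisation on a single curve -/

section Curve

variable {K F : Type*} [Field K] [Field F] [Algebra K F] {g : ℕ} (hF : IsCurveOfGenus K F g)

include hF in
/-- **normalisation**: if `D` has degree zero and `D ≡ div f mod n`, there are `u ≠ 0` and an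
effective divisor `A` with `div u + D + n g P₀ = n A`. -/
theorem exists_rep_div (P₀ : Place K F) {n : ℕ} (hn : 0 < n) (D : Divisor K F)
    (hD : Divisor.degree D = 0) {f : F} (hf0 : f ≠ 0)
    (hdiv : ∀ Q : Place K F, (n : ℤ) ∣ D Q - Q.ord f) :
    ∃ (u : F) (A : Divisor K F), u ≠ 0 ∧ 0 ≤ A ∧
      ∀ Q : Place K F,
        Q.ord u + (D + Finsupp.single P₀ ((n * g : ℕ) : ℤ) : Divisor K F) Q = n * A Q := by
  classical
  letI := hF.hasPrincipalDivisors
  have hn0 : (n : ℤ) ≠ 0 := by exact_mod_cast hn.ne'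
  obtain ⟨E, hE⟩ := U1.exists_nsmul_eq_of_dvd (n := n) (D - divOf (K := K) f) (fun R => by
    rw [Finsupp.sub_apply, divOf_apply hf0]
    exact hdiv R)
  have hEdeg : Divisor.degree E = 0 := by
    have h1 : Divisor.degree (D - divOf (K := K) f) = 0 := by
      rw [map_sub, degree_divOf, sub_zero]
      exact hD
    rw [hE, map_nsmul, nsmul_eq_mul] at h1
    rcases mul_eq_zero.1 h1 with h2 | h2
    · exact absurd h2 hn0
    · exact h2
  set D' : Divisor K F := E + Finsupp.single P₀ (g : ℤ) with hD'
  have hdegD' : Divisor.degree D' = g := by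
    rw [hD', map_add, hEdeg, Divisor.degree_single, hF.deg_eq_one P₀]
    simp
  haveI := hF.finiteDimensional D'
  have hpos : 0 < Module.finrank K (riemannRochSpace D') := by
    have := hF.riemann_le D'
    rw [hdegD'] at this
    omega
  haveI : Nontrivial (riemannRochSpace D') := Module.nontrivial_of_finrank_pos hpos
  obtain ⟨⟨w, hwmem⟩, hw⟩ := exists_ne (0 : riemannRochSpace D')
  have hw0 : w ≠ 0 := fun h => hw (Subtype.ext h)
  set A : Divisor K F := divOf (K := K) w + D' with hA
  have hAnn : 0 ≤ A := by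
    have := (mem_riemannRochSpace_iff_divOf (K := K)).1 hwmem
    exact this.resolve_left hw0
  refine ⟨f⁻¹ * w ^ n, A, mul_ne_zero (inv_ne_zero hf0) (pow_ne_zero n hw0), hAnn, fun Q => ?_⟩
  have h1 : (D - divOf (K := K) f) Q = (n • E) Q := by rw [hE]
  rw [Finsupp.sub_apply, divOf_apply hf0, Finsupp.smul_apply, nsmul_eq_mul] at h1
  have h2 : Q.ord (f⁻¹ * w ^ n) = -Q.ord f + n * Q.ord w := by
    rw [Q.ord_mul (inv_ne_zero hf0) (pow_ne_zero n hw0), Q.ord_inv, ← zpow_natCast, Q.ord_zpow]
  have h3 : A Q = Q.ord w + (E Q + (Finsupp.single P₀ (g : ℤ) : Divisor K F) Q) := by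
    rw [hA, hD', Finsupp.add_apply, Finsupp.add_apply, divOf_apply hw0]
  rw [h2, h3, Finsupp.add_apply, Finsupp.single_apply, Finsupp.single_apply]
  split_ifs
  · push_cast
    linarith [h1]
  · linarith [h1]

end Curve

end Fermat.Agent.S17lib.DivAll

end
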