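/-
S17lib / DivAll / Germ  (helper5)  — Project G, block DIV, step (W2)

**Ultrapower transfer of divisibility** (the analogue of `S27lib.U.countAt_germ` for `DivAt`):

  `divAt_germ : DivAt K₀ n → DivAt (Germ U K₀) n`

for every ultrafilter `U` on every index type and every algebraically closed field `K₀` of
characteristic zero.  Proof: every function field over the ultrapower is an ultra-family
(`S27lib.U.exists_uFam`); on a.e. component the divisor `compDiv i D` is `≡ div fᵢ mod n`; normalise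
(`exists_rep_div`) so that `uᵢ ∈ L(compDiv i (D + n g P₀))`, glue the `uᵢ` (`UFam.exists_glue`) and read
off the orders at a good index (`UFam.ord_compPlace`, `UFam.compDiv_apply_compPlace`).
-/
import Mathlib
import Fermat.Agent.S17lib.DivAll.Defs
import Fermat.Agent.S27lib.U.Main

set_option autoImplicit false
set_option linter.unusedSectionVars false
set_option linter.style.haveILetI false

noncomputable section

namespace Fermat.Agent.S17lib.DivAll

open AlgebraicCurve Filter IntermediateField Fermat.Agent.S18lib Fermat.Agent.ProgramR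
  Fermat.Agent.S27lib Fermat.Agent.S27lib.U

universe u v w

section Fam

variable {ι : Type w} {U : Ultrafilter ι} {K₀ : Type u} [Field K₀] [IsAlgClosed K₀] [CharZero K₀]
  {F' : Type v} [Field F'] [Algebra (Germ (U : Filter ι) K₀) F'] (S : UFam U K₀ F')
  {g : ℕ} (hF' : IsCurveOfGenus (Germ (U : Filter ι) K₀) F' g)

local notation "K*" => Germ (U : Filter ι) K₀

include hF' in
/-- **gluing of solutions**: if a.e. component of a divisor `D` of degree zero is congruent modulo
`n` to a principal divisor, so is `D`. -/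
theorem exists_div_of_components {n : ℕ} (hn : 0 < n) (D : Divisor K* F')
    (hD : Divisor.degree D = 0)
    (H : ∀ᶠ i in (U : Filter ι), ∃ f : S.Fc i, f ≠ 0 ∧
      ∀ Q : Place K₀ (S.Fc i), (n : ℤ) ∣ S.compDiv hF' i D Q - Q.ord f) :
    ∃ f : F', f ≠ 0 ∧ ∀ R : Place K* F', (n : ℤ) ∣ D R - R.ord f := by
  classical
  haveI := hF'.infinite_places
  obtain ⟨P₀⟩ : Nonempty (Place K* F') := inferInstance
  letI := hF'.hasPrincipalDivisors
  set E₀ : Divisor K* F' := D + Finsupp.single P₀ ((n * g : ℕ) : ℤ) with hE₀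
  -- the data of an index
  let Good : ∀ i, S.Fc i → Divisor K₀ (S.Fc i) → Prop := fun i u A =>
    u ≠ 0 ∧ 0 ≤ A ∧ ∀ Q : Place K₀ (S.Fc i), Q.ord u + (S.compDiv hF' i E₀) Q = n * A Q
  have key : ∀ᶠ i in (U : Filter ι), ∃ u A, Good i u A := by
    filter_upwards [H, S.isCurveOfGenus_comp_eq hF'] with i hi1 hi2
    obtain ⟨f, hf0, hf⟩ := hi1
    obtain ⟨u, A, hu0, hA, hrel⟩ := exists_rep_div hi2 (S.compPlace hF' P₀ i) hn
      (S.compDiv hF' i D) (by rw [S.degree_compDiv hF', hD]) hf0 hf
    refine ⟨u, A, hu0, hA, fun Q => ?_⟩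
    rw [hE₀, S.compDiv_add hF', S.compDiv_single hF']
    exact hrel Q
  have hch : ∀ i, ∃ (u : S.Fc i) (A : Divisor K₀ (S.Fc i)),
      (∃ u A, Good i u A) → Good i u A := by
    intro i
    by_cases hi : ∃ u A, Good i u A
    · obtain ⟨u, A, h⟩ := hi
      exact ⟨u, A, fun _ => h⟩
    · exact ⟨0, 0, fun h => absurd h hi⟩
  choose u A hGood using hch
  have hg : ∀ᶠ i in (U : Filter ι), Good i (u i) (A i) := key.mono fun i hi => hGood i hi
  -- glue
  have hmem : ∀ᶠ i in (U : Filter ι), u i ∈ riemannRochSpace (S.compDiv hF' i E₀) := by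
    filter_upwards [hg] with i hi
    rw [Cech.mem_rr_of_ne hi.1]
    intro Q
    have h1 := hi.2.2 Q
    have h2 : (0 : ℤ) ≤ A i Q := by
      have := Finsupp.le_def.1 hi.2.1 Q
      simpa using this
    have h3 : (0 : ℤ) ≤ n * A i Q := mul_nonneg (Int.natCast_nonneg n) h2
    omega
  obtain ⟨hh, -, hhcomp⟩ := S.exists_glue hF' E₀ hmem
  have hh0 : hh ≠ 0 := by
    intro h0
    obtain ⟨i, hi1, hi2, hi3⟩ := (hhcomp.and (hg.and S.comp_zero)).exists
    rw [h0, hi3] at hi1
    exact hi2.1 hi1.symm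
  refine ⟨hh⁻¹, inv_ne_zero hh0, fun R => ?_⟩
  obtain ⟨i, hi1, hi2, hi3, hi4⟩ := ((S.ord_compPlace hF' R hh0).and (hhcomp.and
    ((S.compDiv_apply_compPlace hF' E₀ R).and hg))).exists
  have h1 := hi4.2.2 (S.compPlace hF' R i)
  rw [← hi2, hi1, hi3, hE₀, Finsupp.add_apply, Finsupp.single_apply] at h1
  rw [R.ord_inv]
  split_ifs at h1 with hR
  · refine ⟨A i (S.compPlace hF' R i) - g, ?_⟩
    push_cast at h1
    linarith [h1]
  · refine ⟨A i (S.compPlace hF' R i), ?_⟩
    linarith [h1]

end Fam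

/-- **T2 for divisibility (ultrapower transfer)**: the working statement passes from `K₀` to every
ultrapower of `K₀`. -/
theorem divAt_germ {ι : Type w} (U : Ultrafilter ι) (K₀ : Type u) [Field K₀] [IsAlgClosed K₀]
    [CharZero K₀] {n : ℕ} (hn : 0 < n) (H : DivAt.{u, u} K₀ n) :
    DivAt.{max u w, v} (Germ (U : Filter ι) K₀) n := by
  intro F' _ _ x hx D hD
  haveI := hx.finite
  haveI : CharZero (Germ (U : Filter ι) K₀) := T4.charZero_germ U K₀
  haveI : IsAlgClosed (Germ (U : Filter ι) K₀) := T4.isAlgClosed_germ U K₀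
  have hF' := RRgen.Canonical.isCurveOfGenus_genusOf (Germ (U : Filter ι) K₀) hx.transcendental
  obtain ⟨S, -⟩ := exists_uFam U K₀ x hx.transcendental
  refine exists_div_of_components S hF' hn D hD ?_
  filter_upwards [S.isCurveOfGenus_comp_eq hF'] with i hi
  letI := S.instField i
  letI := S.instAlgebra i
  exact H (S.Fc i) (S.xc i) ⟨S.transc_xc i, S.finite_xc i⟩ (S.compDiv hF' i D)
    (by rw [S.degree_compDiv hF', hD])

end Fermat.Agent.S17lib.DivAll

end
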