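/-
S17lib / DivAll / Transport  (helper5)  — Project G, block DIV, step (W2)

Transport of `DivAt` along ring isomorphisms of the base field (copy of
`S15lib.U1.belyiDivAt_of_ringEquiv` without the Belyi paragraphs).
-/
import Mathlib
import Fermat.Agent.S17lib.DivAll.Defs
import Fermat.Agent.S15lib.U1.Transport

set_option autoImplicit false
set_option linter.style.haveILetI false
set_option linter.unusedSectionVars false

noncomputable section

namespace Fermat.Agent.S17lib.DivAll

open AlgebraicCurve IntermediateField Fermat.Agent.S18lib Fermat.Agent.S27lib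
open Fermat.Agent.S27lib.BR Fermat.Agent.S27lib.Tsig

universe u v u' w

variable {K : Type u} {K' : Type u'} [Field K] [Field K']

/-- **(Tσ)** transport of `DivAt` along a ring isomorphism of the base fields (and a universe lift
of the function fields) -/
theorem divAt_of_ringEquiv (σ : K ≃+* K') {n : ℕ}
    (h : DivAt.{u', max v w} K' n) : DivAt.{u, v} K n := by
  intro F _ _ x hx D hD
  letI := liftAlgebra.{u, v, u', w} σ F
  have comm := liftAlgebra_comm.{u, v, u', w} σ F
  set e : F ≃+* ULift.{w} F := ULift.ringEquiv.symm with he
  obtain ⟨f', hf'0, hdiv⟩ := h (ULift.{w} F) (e x) (isCov_map σ e comm hx)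
    (Transport.divEquiv σ e comm D) (by rw [Transport.degree_divEquiv, hD])
  refine ⟨e.symm f', fun h0 => hf'0 ?_, fun P => ?_⟩
  · rw [← e.apply_symm_apply f', h0, map_zero]
  · have h1 := hdiv (Transport.placeMap σ e comm P)
    have h2 : (Transport.placeMap σ e comm P).ord f' = P.ord (e.symm f') := by
      rw [← Transport.ord_placeMap σ e comm P (e.symm f'), e.apply_symm_apply]
    rw [Transport.divEquiv_apply_placeMap, h2] at h1
    exact h1

/-- same universe for the function fields -/
theorem divAt_of_ringEquiv' (σ : K ≃+* K') {n : ℕ}
    (h : DivAt.{u', v} K' n) : DivAt.{u, v} K n :=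
  divAt_of_ringEquiv.{u, v, u', v} σ h

end Fermat.Agent.S17lib.DivAll

end
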