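/-
S17lib / DivAll / Main  (helper5)  — Project G, block DIV, step (W2)

**Divisibility of `Pic⁰` over every algebraically closed field of characteristic zero**:
`Weil.DivisibleAt K n` for every such `K` and every `n > 0`.

Chain (the short chain of S27, with existence statements instead of counts):
  (U1) `DivisibleAt ℚ̄ n`  ⇒  `DivAt ℚ̄ n`  ⇒(T2, `divAt_germ`)  `DivAt (Germ U ℚ̄) n`
   ⇒(Steinitz + Tσ, `divAt_of_ringEquiv`)  `DivAt (Germ U K) n`  ⇒(TD, `divAt_of_germ`)  `DivAt K n`
   ⇒  `DivisibleAt K n`.
-/
import Mathlib
import Fermat.Agent.S17lib.DivAll.Defs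
import Fermat.Agent.S17lib.DivAll.Germ
import Fermat.Agent.S17lib.DivAll.Transport
import Fermat.Agent.S17lib.DivAll.Descent
import Fermat.Agent.S15lib.U1.OverC
import Fermat.Agent.S15lib.U1.Marked
import Fermat.Agent.S15lib.U1.Pack
import Fermat.Agent.S27lib.TC.Steinitz
import Fermat.Agent.S27lib.T1.Short

set_option autoImplicit false
set_option linter.style.haveILetI false
set_option linter.unusedSectionVars false

noncomputable section

namespace Fermat.Agent.S17lib.DivAll

open AlgebraicCurve Filter IntermediateField Fermat.Agent.S18lib Fermat.Agent.S27lib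
open Fermat.Agent.S15lib

universe u v

/-- (U1) over `ℚ̄`, re-derived from its three ingredients (so that this file does not import the
whole of `S15lib.Desc`) -/
theorem divisibleAt_Qb' {n : ℕ} (hn : 0 < n) : Weil.DivisibleAt.{0, 0} Qb n :=
  U1.divisibleAt_of_complex U1.markedBelyi_Qb hn (U1.belyiDivAt_complex n hn)

/-- the working statement over `ℚ̄` -/
theorem divAt_Qb {n : ℕ} (hn : 0 < n) : DivAt.{0, 0} Qb n :=
  divAt_of_divisibleAt (divisibleAt_Qb' hn)

/-- the working statement for every algebraically closed field of characteristic zero, everything in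
one universe -/
theorem divAt_all_aux {n : ℕ} (hn : 0 < n) (K : Type u) [Field K] [IsAlgClosed K] [CharZero K] :
    DivAt.{u, u} K n := by
  obtain ⟨I, U, ⟨σ⟩⟩ := TC.exists_ringEquiv_germ K
  have h2 : DivAt.{u, u} ((U : Filter I).Germ Qb) n := divAt_germ.{0, u, u} U Qb hn (divAt_Qb hn)
  exact divAt_of_germ U K (divAt_of_ringEquiv' σ.symm h2)

/-- the working statement for every algebraically closed field of characteristic zero -/
theorem divAt_all {n : ℕ} (hn : 0 < n) (K : Type u) [Field K] [IsAlgClosed K] [CharZero K] :
    DivAt.{u, v} K n := by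
  let σ : K ≃+* ULift.{max u v} K := ULift.ringEquiv.symm
  haveI : IsAlgClosed (ULift.{max u v} K) := T1.isAlgClosed_of_ringEquiv' σ
  haveI : CharZero (ULift.{max u v} K) := charZero_of_injective_ringHom (f := (σ : K →+* _))
    σ.injective
  exact divAt_of_ringEquiv.{u, v, max u v, max u v} σ (divAt_all_aux hn (ULift.{max u v} K))

/-- **(W2)** `Pic⁰` of every curve over every algebraically closed field of characteristic zero is
divisible: every degree zero divisor is `n` times a degree zero divisor up to a principal
divisor. -/
theorem divisibleAt_all (K : Type u) [Field K] [IsAlgClosed K] [CharZero K] {n : ℕ} (hn : 0 < n) :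
    Weil.DivisibleAt.{u, v} K n :=
  divisibleAt_of_divAt hn (divAt_all hn K)

end Fermat.Agent.S17lib.DivAll

end
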