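/-
S17lib / DivAll / DivData  (helper5)  — Project G, block DIV, step D2

**The generic division datum on ONE curve** (to be applied to `FΩ / Ω`, `Ω` the algebraic closure of
the function field, `η` the generic point, `inf` the constant place over the base point, `S` the
constant places):  for two distinct places `η ≠ inf` of a curve of genus `g ≥ 1` over an
algebraically closed field of characteristic zero, an infinite set `S` of places and `m > 0` there
are a divisor `B` of degree `g` supported in `S`, an effective multiplicity free divisor `E` of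
degree `g` with `ℓ(E) = 1`, disjoint from `η`, `inf` and the support of `B`, and a function `φ` with

  `div φ = m (E - B) - η + inf`.

Inputs: divisibility of `Pic⁰` over every algebraically closed field of characteristic zero
(`divAt_all`, (W2)), the normalisation `exists_rep_div` and general position `exists_general_rep`.
-/
import Mathlib
import Fermat.Agent.S17lib.DivAll.Main
import Fermat.Agent.S17lib.DivAll.GenPos

set_option autoImplicit false
set_option linter.style.haveILetI false
set_option linter.unusedSectionVars false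

noncomputable section

namespace Fermat.Agent.S17lib.DivAll

open AlgebraicCurve Module IntermediateField Fermat.Agent.S18lib Fermat.Agent.S27lib

universe u v

variable {K : Type u} {F : Type v} [Field K] [Field F] [Algebra K F] {g : ℕ}

/-- on a curve of genus `≥ 1` there is no function with a single simple pole -/
theorem no_simple_pole (hF : IsCurveOfGenus K F g) (hg : 1 ≤ g) (inf : Place K F) (h : F)
    (hpole : inf.ord h = -1) (hreg : ∀ Q : Place K F, Q ≠ inf → 0 ≤ Q.ord h) : False := by
  classical
  have hh0 : h ≠ 0 := by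
    rintro rfl
    rw [inf.ord_zero] at hpole
    omega
  have hsingle : ∀ n : ℤ, Divisor.degree (Finsupp.single inf n : Divisor K F) = n := by
    intro n
    rw [Divisor.degree_single, hF.deg_eq_one inf]; simp
  -- `j + 1 ≤ ℓ(j • inf)`
  have key : ∀ j : ℕ, j + 1 ≤ finrank K (riemannRochSpace (Finsupp.single inf (j : ℤ) : Divisor K F)) := by
    intro j
    induction j with
    | zero =>
      haveI := hF.finiteDimensional (Finsupp.single inf ((0 : ℕ) : ℤ) : Divisor K F)
      have h1 : (1 : F) ∈ riemannRochSpace (Finsupp.single inf ((0 : ℕ) : ℤ) : Divisor K F) := by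
        rw [Cech.mem_rr_of_ne one_ne_zero]
        intro v
        simp [Place.ord_one]
      have : 0 < finrank K (riemannRochSpace (Finsupp.single inf ((0 : ℕ) : ℤ) : Divisor K F)) := by
        rw [Module.finrank_pos_iff_exists_ne_zero]
        exact ⟨⟨1, h1⟩, fun h0 => one_ne_zero (congrArg Subtype.val h0)⟩
      omega
    | succ j ih =>
      have hrw : (Finsupp.single inf ((j + 1 : ℕ) : ℤ) : Divisor K F) =
          Finsupp.single inf (j : ℤ) + Finsupp.single inf 1 := by
        rw [← Finsupp.single_add]; push_cast; rfl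
      rw [hrw]
      haveI := hF.finiteDimensional
        (Finsupp.single inf (j : ℤ) + Finsupp.single inf 1 : Divisor K F)
      have hpow0 : h ^ (j + 1) ≠ 0 := pow_ne_zero _ hh0
      have hmem : h ^ (j + 1) ∈ riemannRochSpace
          (Finsupp.single inf (j : ℤ) + Finsupp.single inf 1 : Divisor K F) := by
        rw [Cech.mem_rr_of_ne hpow0]
        intro v
        rw [Cech.ord_pow, Finsupp.add_apply, Finsupp.single_apply, Finsupp.single_apply]
        by_cases hv : inf = v
        · subst hv
          rw [if_pos rfl, if_pos rfl, hpole]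
          push_cast
          ring_nf
          omega
        · rw [if_neg hv, if_neg hv]
          have := hreg v (Ne.symm hv)
          have h2 : (0 : ℤ) ≤ ((j + 1 : ℕ) : ℤ) * v.ord h := mul_nonneg (by positivity) this
          omega
      have hnot : h ^ (j + 1) ∉ riemannRochSpace (Finsupp.single inf (j : ℤ) : Divisor K F) := by
        rw [Cech.mem_rr_of_ne hpow0]
        intro hall
        have := hall inf
        rw [Cech.ord_pow, Finsupp.single_eq_same, hpole] at this
        push_cast at this
        omega
      have hlt : riemannRochSpace (Finsupp.single inf (j : ℤ) : Divisor K F) <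
          riemannRochSpace (Finsupp.single inf (j : ℤ) + Finsupp.single inf 1 : Divisor K F) :=
        lt_of_le_of_ne (rr_le_add_single _ inf) fun heq => hnot (heq ▸ hmem)
      have := Submodule.finrank_lt_finrank_of_lt hlt
      omega
  have h1 := key (2 * g - 1)
  have h2 := hF.riemann_eq (Finsupp.single inf ((2 * g - 1 : ℕ) : ℤ))
    (by rw [hsingle]; push_cast [Nat.cast_sub (show 1 ≤ 2 * g by omega)]; omega)
  rw [hsingle] at h2
  have h3 : ((2 * g - 1 + 1 : ℕ) : ℤ) ≤
      (finrank K (riemannRochSpace (Finsupp.single inf ((2 * g - 1 : ℕ) : ℤ) : Divisor K F)) : ℤ) := by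
    exact_mod_cast h1
  rw [h2] at h3
  push_cast [Nat.cast_sub (show 1 ≤ 2 * g by omega)] at h3
  omega

/-- **D2: the generic division datum.** -/
theorem exists_division_data (hF : IsCurveOfGenus K F g) [IsAlgClosed K] [CharZero K]
    (hg : 1 ≤ g) {x₀ : F} (hx₀ : Transcendental K x₀) [FiniteDimensional K⟮x₀⟯ F]
    {S : Set (Place K F)} (hS : S.Infinite) (η inf : Place K F) (hne : η ≠ inf) {m : ℕ}
    (hm : 0 < m) :
    ∃ (B E : Divisor K F) (φ : F), φ ≠ 0 ∧ (∀ P, B P ≠ 0 → P ∈ S) ∧ Divisor.degree B = g ∧
      0 ≤ E ∧ (∀ P, E P ≤ 1) ∧ Divisor.degree E = g ∧ E η = 0 ∧ E inf = 0 ∧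
      (∀ P, B P ≠ 0 → E P = 0) ∧ finrank K (riemannRochSpace E) = 1 ∧
      ∀ P : Place K F, P.ord φ =
        (m : ℤ) * (E P - B P) - (Finsupp.single η (1 : ℤ) - Finsupp.single inf (1 : ℤ) : Divisor K F) P := by
  classical
  letI := hF.hasPrincipalDivisors
  have hsingle : ∀ (P : Place K F) (n : ℤ),
      Divisor.degree (Finsupp.single P n : Divisor K F) = n := by
    intro P n
    rw [Divisor.degree_single, hF.deg_eq_one P]; simp
  set D : Divisor K F := Finsupp.single η (1 : ℤ) - Finsupp.single inf (1 : ℤ) with hD
  have hDdeg : Divisor.degree D = 0 := by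
    rw [hD, map_sub, hsingle, hsingle]; ring
  -- (W2): `D ≡ div f mod m`
  obtain ⟨f, hf0, hfdiv⟩ := divAt_all.{u, v} hm K F x₀ ⟨hx₀, inferInstance⟩ D hDdeg
  -- normalisation
  obtain ⟨u, A, hu0, hA0, hA⟩ := exists_rep_div hF inf hm D hDdeg hf0 hfdiv
  set Z : Divisor K F := A - Finsupp.single inf (g : ℤ) with hZ
  have hm0 : (m : ℤ) ≠ 0 := by exact_mod_cast hm.ne'
  have hmZ : ∀ Q : Place K F, (m : ℤ) * Z Q = Q.ord u + D Q := by
    intro Q
    have := hA Q
    rw [Finsupp.add_apply] at this
    rw [hZ, Finsupp.sub_apply, mul_sub, ← this]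
    rw [Finsupp.single_apply, Finsupp.single_apply]
    split_ifs
    · push_cast; ring
    · ring
  have hZdeg : Divisor.degree Z = 0 := by
    have h1 : (m : ℤ) • Z = divOf (K := K) u + D := by
      ext Q
      rw [Finsupp.smul_apply, smul_eq_mul, hmZ Q, Finsupp.add_apply, divOf_apply hu0]
    have h2 := congrArg Divisor.degree h1
    rw [map_zsmul, map_add, degree_divOf, hDdeg, add_zero, smul_eq_mul] at h2
    exact (mul_eq_zero.1 h2).resolve_left hm0
  -- `Z` is not principal
  have hZbot : riemannRochSpace Z = ⊥ := by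
    rw [eq_bot_iff]
    intro w hw
    rw [Submodule.mem_bot]
    by_contra hw0
    exfalso
    obtain ⟨w', hw'0, hw'⟩ := Cech.mem_principal_of_mem_rr hF hZdeg hw hw0
    -- `D = div (w' ^ m / u)`
    set h : F := w' ^ m / u with hh
    have hpow0 : w' ^ m ≠ 0 := pow_ne_zero _ hw'0
    have hord : ∀ Q : Place K F, Q.ord h = D Q := by
      intro Q
      rw [hh, div_eq_mul_inv, Q.ord_mul hpow0 (inv_ne_zero hu0), Q.ord_inv, Cech.ord_pow,
        ← hw' Q]
      have := hmZ Q
      omega
    -- `h⁻¹` has a single simple pole at `η`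
    apply no_simple_pole hF hg η h⁻¹
    · rw [η.ord_inv, hord, hD, Finsupp.sub_apply, Finsupp.single_eq_same,
        Finsupp.single_apply, if_neg (Ne.symm hne)]
      ring
    · intro Q hQ
      rw [Q.ord_inv, hord, hD, Finsupp.sub_apply, Finsupp.single_apply, Finsupp.single_apply,
        if_neg (Ne.symm hQ)]
      split_ifs <;> omega
  -- general position
  obtain ⟨B, E, v, hv0, hBS, hBdeg, hE0, hE1, hEdeg, hET, hEB, hEl, hv⟩ :=
    exists_general_rep hF hg x₀ hS {η, inf} Z hZdeg hZbot
  refine ⟨B, E, v ^ m * u, mul_ne_zero (pow_ne_zero _ hv0) hu0, hBS, hBdeg, hE0, hE1, hEdeg,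
    hET η (by simp), hET inf (by simp), hEB, hEl, fun P => ?_⟩
  rw [P.ord_mul (pow_ne_zero _ hv0) hu0, Cech.ord_pow, hv P]
  have := hmZ P
  linarith

/-- an effective multiplicity free divisor is the sum of its points, enumerated injectively -/
theorem exists_points_of_reduced (hF : IsCurveOfGenus K F g) (E : Divisor K F) (hE0 : 0 ≤ E)
    (hE1 : ∀ P, E P ≤ 1) (hEdeg : Divisor.degree E = g) :
    ∃ Q : Fin g → Place K F, Function.Injective Q ∧
      E = ∑ j, Finsupp.single (Q j) (1 : ℤ) ∧ ∀ P, E P ≠ 0 ↔ ∃ j, Q j = P := by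
  classical
  have hval : ∀ P ∈ E.support, E P = 1 := by
    intro P hP
    have h0 := Finsupp.le_def.1 hE0 P
    rw [Finsupp.zero_apply] at h0
    have h1 := hE1 P
    have h2 := Finsupp.mem_support_iff.1 hP
    omega
  have hsum : E = ∑ P ∈ E.support, Finsupp.single P (1 : ℤ) := by
    conv_lhs => rw [← Finsupp.sum_single E]
    rw [Finsupp.sum]
    exact Finset.sum_congr rfl fun P hP => by rw [hval P hP]
  have hcard : E.support.card = g := by
    have h1 := Cech.degree_eq_sum' E
    rw [hEdeg] at h1
    have h2 : ∑ v ∈ E.support, E v * (v.deg : ℤ) = ∑ _v ∈ E.support, (1 : ℤ) :=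
      Finset.sum_congr rfl fun P hP => by rw [hval P hP, hF.deg_eq_one P]; simp
    rw [h2] at h1
    simp only [Finset.sum_const, nsmul_eq_mul, mul_one] at h1
    exact_mod_cast h1.symm
  let e : Fin g ≃ E.support := (E.support.equivFin.trans (finCongr hcard)).symm
  refine ⟨fun j => (e j : Place K F), ?_, ?_, ?_⟩
  · intro i j hij
    exact e.injective (Subtype.ext hij)
  · calc E = ∑ P ∈ E.support, Finsupp.single P (1 : ℤ) := hsum
      _ = ∑ P : E.support, (Finsupp.single (P : Place K F) (1 : ℤ) : Divisor K F) :=
          (Finset.sum_coe_sort E.support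
            (fun P => (Finsupp.single P (1 : ℤ) : Divisor K F))).symm
      _ = ∑ j, Finsupp.single ((e j : E.support) : Place K F) (1 : ℤ) :=
          (Equiv.sum_comp e
            fun P : E.support => (Finsupp.single (P : Place K F) (1 : ℤ) : Divisor K F)).symm
  · intro P
    constructor
    · intro hP
      refine ⟨e.symm ⟨P, Finsupp.mem_support_iff.2 hP⟩, ?_⟩
      simp
    · rintro ⟨j, rfl⟩
      exact Finsupp.mem_support_iff.1 (e j).2

end Fermat.Agent.S17lib.DivAll

end
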